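import Mathlib
set_option autoImplicit false
set_option linter.unusedVariables false
/-!
# Program U: the explicit 5-congruent family (Rubin-Silverberg; derived by helper16, 2566)

For `E : y² = x³ + 3 a x + b` the curve `E_(m:n) : y² = x³ + A(m,n) x + B(m,n)` with
`A = u5fA a b m n`, `B = u5fB a b m n` has `E_(m:n)[5] ≅ E[5]`;  `u5_syz` is the identity
`4 A³ + 27 B² = (4 (3a)³ + 27 b²) D⁵`, `D = u5fD a b m n`.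
-/
namespace Fermat.Agent.U5
variable {R : Type*} [CommRing R]
def u5cD0 (a b : R) : R := 1
def u5cD1 (a b : R) : R := 0
def u5cD2 (a b : R) : R := 66 * a
def u5cD3 (a b : R) : R := 220 * b
def u5cD4 (a b : R) : R := -1485 * a ^ 2
def u5cD5 (a b : R) : R := -1584 * a * b
def u5cD6 (a b : R) : R := -5940 * a ^ 3 - 2640 * b ^ 2
def u5cD7 (a b : R) : R := 2376 * a ^ 2 * b
def u5cD8 (a b : R) : R := -66825 * a ^ 4 - 15840 * a * b ^ 2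
def u5cD9 (a b : R) : R := -71280 * a ^ 3 * b - 17600 * b ^ 3
def u5cD10 (a b : R) : R := 133650 * a ^ 5 + 33264 * a ^ 2 * b ^ 2
def u5cD11 (a b : R) : R := 30780 * a ^ 4 * b + 7680 * a * b ^ 3
def u5cD12 (a b : R) : R := 91125 * a ^ 6 + 48384 * a ^ 3 * b ^ 2 + 6400 * b ^ 4
def u5fD (a b m n : R) : R :=
  u5cD0 a b * m ^ 12 * n ^ 0 +
  u5cD1 a b * m ^ 11 * n ^ 1 +
  u5cD2 a b * m ^ 10 * n ^ 2 +
  u5cD3 a b * m ^ 9 * n ^ 3 +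
  u5cD4 a b * m ^ 8 * n ^ 4 +
  u5cD5 a b * m ^ 7 * n ^ 5 +
  u5cD6 a b * m ^ 6 * n ^ 6 +
  u5cD7 a b * m ^ 5 * n ^ 7 +
  u5cD8 a b * m ^ 4 * n ^ 8 +
  u5cD9 a b * m ^ 3 * n ^ 9 +
  u5cD10 a b * m ^ 2 * n ^ 10 +
  u5cD11 a b * m ^ 1 * n ^ 11 +
  u5cD12 a b * m ^ 0 * n ^ 12

def u5cA0 (a b : R) : R := 3 * a
def u5cA1 (a b : R) : R := 30 * b
def u5cA2 (a b : R) : R := -570 * a ^ 2
def u5cA3 (a b : R) : R := -1710 * a * b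
def u5cA4 (a b : R) : R := -2565 * a ^ 3 - 4275 * b ^ 2
def u5cA5 (a b : R) : R := 23256 * a ^ 2 * b
def u5cA6 (a b : R) : R := -307800 * a ^ 4 - 47880 * a * b ^ 2
def u5cA7 (a b : R) : R := -389880 * a ^ 3 * b - 68400 * b ^ 3
def u5cA8 (a b : R) : R := -3001050 * a ^ 5 - 844740 * a ^ 2 * b ^ 2
def u5cA9 (a b : R) : R := -11604060 * a ^ 4 * b - 2964000 * a * b ^ 3
def u5cA10 (a b : R) : R := 30010500 * a ^ 6 - 4214808 * a ^ 3 * b ^ 2 - 2964000 * b ^ 4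
def u5cA11 (a b : R) : R := 82028700 * a ^ 5 * b + 20570160 * a ^ 2 * b ^ 3
def u5cA12 (a b : R) : R := -135047250 * a ^ 7 - 5401890 * a ^ 4 * b ^ 2 + 7113600 * a * b ^ 4
def u5cA13 (a b : R) : R := -52633800 * a ^ 6 * b + 8700480 * a ^ 3 * b ^ 3 + 5472000 * b ^ 5
def u5cA14 (a b : R) : R := -623295000 * a ^ 8 - 371391480 * a ^ 5 * b ^ 2 - 53899200 * a ^ 2 * b ^ 4
def u5cA15 (a b : R) : R := -623295000 * a ^ 7 * b - 330921936 * a ^ 4 * b ^ 3 - 43776000 * a * b ^ 5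
def u5cA16 (a b : R) : R := -233735625 * a ^ 9 - 536033700 * a ^ 6 * b ^ 2 - 228839040 * a ^ 3 * b ^ 4 - 27360000 * b ^ 6
def u5cA17 (a b : R) : R := 529800750 * a ^ 8 * b + 268155360 * a ^ 5 * b ^ 3 + 33926400 * a ^ 2 * b ^ 5
def u5cA18 (a b : R) : R := -2337356250 * a ^ 10 - 1637188200 * a ^ 7 * b ^ 2 - 379948320 * a ^ 4 * b ^ 4 - 29184000 * a * b ^ 6
def u5cA19 (a b : R) : R := -1041558750 * a ^ 9 * b - 766655280 * a ^ 6 * b ^ 3 - 188006400 * a ^ 3 * b ^ 5 - 15360000 * b ^ 7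
def u5cA20 (a b : R) : R := 553584375 * a ^ 11 + 411976125 * a ^ 8 * b ^ 2 + 102187008 * a ^ 5 * b ^ 4 + 8448000 * a ^ 2 * b ^ 6
def u5fA (a b m n : R) : R :=
  u5cA0 a b * m ^ 20 * n ^ 0 +
  u5cA1 a b * m ^ 19 * n ^ 1 +
  u5cA2 a b * m ^ 18 * n ^ 2 +
  u5cA3 a b * m ^ 17 * n ^ 3 +
  u5cA4 a b * m ^ 16 * n ^ 4 +
  u5cA5 a b * m ^ 15 * n ^ 5 +
  u5cA6 a b * m ^ 14 * n ^ 6 +
  u5cA7 a b * m ^ 13 * n ^ 7 +
  u5cA8 a b * m ^ 12 * n ^ 8 +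
  u5cA9 a b * m ^ 11 * n ^ 9 +
  u5cA10 a b * m ^ 10 * n ^ 10 +
  u5cA11 a b * m ^ 9 * n ^ 11 +
  u5cA12 a b * m ^ 8 * n ^ 12 +
  u5cA13 a b * m ^ 7 * n ^ 13 +
  u5cA14 a b * m ^ 6 * n ^ 14 +
  u5cA15 a b * m ^ 5 * n ^ 15 +
  u5cA16 a b * m ^ 4 * n ^ 16 +
  u5cA17 a b * m ^ 3 * n ^ 17 +
  u5cA18 a b * m ^ 2 * n ^ 18 +
  u5cA19 a b * m ^ 1 * n ^ 19 +
  u5cA20 a b * m ^ 0 * n ^ 20

def u5cB0 (a b : R) : R := 1 * b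
def u5cB1 (a b : R) : R := -60 * a ^ 2
def u5cB2 (a b : R) : R := -435 * a * b
def u5cB3 (a b : R) : R := 2320 * a ^ 3 - 1450 * b ^ 2
def u5cB4 (a b : R) : R := 27405 * a ^ 2 * b
def u5cB5 (a b : R) : R := -191052 * a ^ 4 + 23490 * a * b ^ 2
def u5cB6 (a b : R) : R := -437175 * a ^ 3 * b + 39150 * b ^ 3
def u5cB7 (a b : R) : R := -3758400 * a ^ 5 - 1957500 * a ^ 2 * b ^ 2
def u5cB8 (a b : R) : R := -8554275 * a ^ 4 * b - 3601800 * a * b ^ 3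
def u5cB9 (a b : R) : R := -48624300 * a ^ 6 - 21010500 * a ^ 3 * b ^ 2 - 4002000 * b ^ 4
def u5cB10 (a b : R) : R := -246633255 * a ^ 5 * b - 54147060 * a ^ 2 * b ^ 3
def u5cB11 (a b : R) : R := 324162000 * a ^ 7 - 676237950 * a ^ 4 * b ^ 2 - 182491200 * a * b ^ 4
def u5cB12 (a b : R) : R := 4131714825 * a ^ 6 * b + 403001400 * a ^ 3 * b ^ 3 - 152076000 * b ^ 5
def u5cB13 (a b : R) : R := -13857925500 * a ^ 8 + 2617608150 * a ^ 5 * b ^ 2 + 1505552400 * a ^ 2 * b ^ 4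
def u5cB14 (a b : R) : R := -43190534475 * a ^ 7 * b - 10761277950 * a ^ 4 * b ^ 3
def u5cB15 (a b : R) : R := -39787643880 * a ^ 6 * b ^ 2 - 9927521280 * a ^ 3 * b ^ 4
def u5cB16 (a b : R) : R := -176688550125 * a ^ 8 * b - 118664902800 * a ^ 5 * b ^ 3 - 18614102400 * a ^ 2 * b ^ 5
def u5cB17 (a b : R) : R := 623606647500 * a ^ 10 + 38802191400 * a ^ 7 * b ^ 2 - 116885613600 * a ^ 4 * b ^ 4 - 21898944000 * a * b ^ 6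
def u5cB18 (a b : R) : R := 1694131392375 * a ^ 9 * b + 694128090600 * a ^ 6 * b ^ 3 + 18979084800 * a ^ 3 * b ^ 5 - 12166080000 * b ^ 7
def u5cB19 (a b : R) : R := -656428050000 * a ^ 11 + 1740920125050 * a ^ 8 * b ^ 2 + 1012595644800 * a ^ 5 * b ^ 4 + 134083008000 * a ^ 2 * b ^ 6
def u5cB20 (a b : R) : R := -2874607835625 * a ^ 10 * b - 606221839440 * a ^ 7 * b ^ 3 + 243256927680 * a ^ 4 * b ^ 5 + 53786880000 * a * b ^ 7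
def u5cB21 (a b : R) : R := 4430889337500 * a ^ 12 + 1538594412750 * a ^ 9 * b ^ 2 + 338641236000 * a ^ 6 * b ^ 4 + 160182451200 * a ^ 3 * b ^ 6 + 25612800000 * b ^ 8
def u5cB22 (a b : R) : R := 1403114956875 * a ^ 11 * b - 431127355950 * a ^ 8 * b ^ 3 - 481315737600 * a ^ 5 * b ^ 5 - 71459712000 * a ^ 2 * b ^ 7
def u5cB23 (a b : R) : R := 15411789000000 * a ^ 13 + 16707235486500 * a ^ 10 * b ^ 2 + 6236087616000 * a ^ 7 * b ^ 4 + 948058905600 * a ^ 4 * b ^ 6 + 48107520000 * a * b ^ 8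
def u5cB24 (a b : R) : R := 5089101159375 * a ^ 12 * b + 5671804728600 * a ^ 9 * b ^ 3 + 2202880924800 * a ^ 6 * b ^ 5 + 355928832000 * a ^ 3 * b ^ 7 + 20044800000 * b ^ 9
def u5cB25 (a b : R) : R := 35254467337500 * a ^ 14 + 35048976817500 * a ^ 11 * b ^ 2 + 13191075782640 * a ^ 8 * b ^ 4 + 2227331271168 * a ^ 5 * b ^ 6 + 142318080000 * a ^ 2 * b ^ 8
def u5cB26 (a b : R) : R := 40985726371875 * a ^ 13 * b + 40918014391500 * a ^ 10 * b ^ 3 + 15339882539520 * a ^ 7 * b ^ 5 + 2559430310400 * a ^ 4 * b ^ 7 + 160358400000 * a * b ^ 9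
def u5cB27 (a b : R) : R := -19264736250000 * a ^ 15 - 4052016191250 * a ^ 12 * b ^ 2 + 7975772049600 * a ^ 9 * b ^ 4 + 4493861752320 * a ^ 6 * b ^ 6 + 874487808000 * a ^ 3 * b ^ 8 + 59392000000 * b ^ 10
def u5cB28 (a b : R) : R := -21432019078125 * a ^ 14 * b - 21429807201000 * a ^ 11 * b ^ 3 - 8036282665440 * a ^ 8 * b ^ 5 - 1339553894400 * a ^ 5 * b ^ 7 - 83742720000 * a ^ 2 * b ^ 9
def u5cB29 (a b : R) : R := 22420167187500 * a ^ 16 + 24936761756250 * a ^ 13 * b ^ 2 + 10924361557200 * a ^ 10 * b ^ 4 + 2345084835840 * a ^ 7 * b ^ 6 + 244878336000 * a ^ 4 * b ^ 8 + 9830400000 * a * b ^ 10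
def u5cB30 (a b : R) : R := 4110363984375 * a ^ 15 * b + 4949216538750 * a ^ 12 * b ^ 3 + 2380246539264 * a ^ 9 * b ^ 5 + 571471718400 * a ^ 6 * b ^ 7 + 68485120000 * a ^ 3 * b ^ 9 + 3276800000 * b ^ 11
def u5fB (a b m n : R) : R :=
  u5cB0 a b * m ^ 30 * n ^ 0 +
  u5cB1 a b * m ^ 29 * n ^ 1 +
  u5cB2 a b * m ^ 28 * n ^ 2 +
  u5cB3 a b * m ^ 27 * n ^ 3 +
  u5cB4 a b * m ^ 26 * n ^ 4 +
  u5cB5 a b * m ^ 25 * n ^ 5 +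
  u5cB6 a b * m ^ 24 * n ^ 6 +
  u5cB7 a b * m ^ 23 * n ^ 7 +
  u5cB8 a b * m ^ 22 * n ^ 8 +
  u5cB9 a b * m ^ 21 * n ^ 9 +
  u5cB10 a b * m ^ 20 * n ^ 10 +
  u5cB11 a b * m ^ 19 * n ^ 11 +
  u5cB12 a b * m ^ 18 * n ^ 12 +
  u5cB13 a b * m ^ 17 * n ^ 13 +
  u5cB14 a b * m ^ 16 * n ^ 14 +
  u5cB15 a b * m ^ 15 * n ^ 15 +
  u5cB16 a b * m ^ 14 * n ^ 16 +
  u5cB17 a b * m ^ 13 * n ^ 17 +
  u5cB18 a b * m ^ 12 * n ^ 18 +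
  u5cB19 a b * m ^ 11 * n ^ 19 +
  u5cB20 a b * m ^ 10 * n ^ 20 +
  u5cB21 a b * m ^ 9 * n ^ 21 +
  u5cB22 a b * m ^ 8 * n ^ 22 +
  u5cB23 a b * m ^ 7 * n ^ 23 +
  u5cB24 a b * m ^ 6 * n ^ 24 +
  u5cB25 a b * m ^ 5 * n ^ 25 +
  u5cB26 a b * m ^ 4 * n ^ 26 +
  u5cB27 a b * m ^ 3 * n ^ 27 +
  u5cB28 a b * m ^ 2 * n ^ 28 +
  u5cB29 a b * m ^ 1 * n ^ 29 +
  u5cB30 a b * m ^ 0 * n ^ 30

set_option maxHeartbeats 8000000 in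
theorem u5_syz (a b m n : R) :
    4 * u5fA a b m n ^ 3 + 27 * u5fB a b m n ^ 2 = (4 * (3 * a) ^ 3 + 27 * b ^ 2) * u5fD a b m n ^ 5 := by
  simp only [u5fD, u5cD0, u5cD1, u5cD2, u5cD3, u5cD4, u5cD5, u5cD6, u5cD7, u5cD8, u5cD9, u5cD10, u5cD11, u5cD12, u5fA, u5cA0, u5cA1, u5cA2, u5cA3, u5cA4, u5cA5, u5cA6, u5cA7, u5cA8, u5cA9, u5cA10, u5cA11, u5cA12, u5cA13, u5cA14, u5cA15, u5cA16, u5cA17, u5cA18, u5cA19, u5cA20, u5fB, u5cB0, u5cB1, u5cB2, u5cB3, u5cB4, u5cB5, u5cB6, u5cB7, u5cB8, u5cB9, u5cB10, u5cB11, u5cB12, u5cB13, u5cB14, u5cB15, u5cB16, u5cB17, u5cB18, u5cB19, u5cB20, u5cB21, u5cB22, u5cB23, u5cB24, u5cB25, u5cB26, u5cB27, u5cB28, u5cB29, u5cB30]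
  ring
end Fermat.Agent.U5
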