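import Fermat.Agent.U5.Defs
import Fermat.Agent.U5.FamPoly
import Fermat.Agent.S51.ModFive
import Fermat.Agent.S51.ModThree
import Fermat.Agent.S05.VariableChangeGalois

/-!
# Program U (S52): the top-level leaves and the assembly of S52 from them

Leaves (each a `Prop`; to be proved as `theorem u5_leaf_… : U5Leaf…`):

* `U5LeafWeil`   (E)  : WEIL-E at `p = 5` - for every prime `ℓ ≠ 5` some `σ ∈ Gal(ℚ̄/ℚ)` (a Frobenius at a
                         place over `ℓ`) satisfies `σ² - a_ℓ(W) σ + ℓ = 0` on `W[5](ℚ̄)` for EVERY integral model `W`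
                         with good reduction at `ℓ` (helper6's WE package, shared with S58);
* `U5LeafFam`    (F)  : the integral models `u5Member W m n`, `(m,n) ≡ (1,0) mod M`, of the explicit family are
                         semistable with `Δ = Δ(W) D(m,n)^5 ≠ 0` (helper16's multiplicity lemma + congruences);
* `U5LeafKlein`  (U1) : `E_{(m:n)}[5] ≅ E[5]` over `ℚ` for the short models (Klein's icosahedral forms);
* `U5LeafHit`    (G+H): for every modulus `M` some `(m,n) ≡ (1,0) mod M` has `ψ₃(E_(m:n))` without rational root.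

`u5_result` deduces the frozen statement S52 from these four.
-/

set_option autoImplicit false
set_option linter.unusedSimpArgs false

namespace Fermat.Agent.U5

open WeierstrassCurve WeierstrassCurve.Affine

/-! ### transport of congruences along equivariant isomorphisms of the full groups of points -/

/-- An equivariant isomorphism `E(ℚ̄) ≃ E'(ℚ̄)` induces `E[n] ≅ E'[n]`. -/
lemma u5CongrQ_of_pointEquiv (n : ℕ) {E E' : WeierstrassCurve ℚ}
    (e : (E⁄U5Qb).Point ≃+ (E'⁄U5Qb).Point)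
    (he : ∀ (σ : U5Qb ≃ₐ[ℚ] U5Qb) (P : (E⁄U5Qb).Point), e (σ • P) = σ • e P) :
    U5CongrQ n E E' := by
  have hmem : ∀ P : (E⁄U5Qb).Point, P ∈ Submodule.torsionBy ℤ (E⁄U5Qb).Point (n : ℕ) →
      e P ∈ Submodule.torsionBy ℤ (E'⁄U5Qb).Point (n : ℕ) := by
    intro P hP
    rw [Submodule.mem_torsionBy_iff] at hP ⊢
    rw [← map_zsmul, hP, map_zero]
  have hmem' : ∀ P : (E'⁄U5Qb).Point, P ∈ Submodule.torsionBy ℤ (E'⁄U5Qb).Point (n : ℕ) →
      e.symm P ∈ Submodule.torsionBy ℤ (E⁄U5Qb).Point (n : ℕ) := by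
    intro P hP
    rw [Submodule.mem_torsionBy_iff] at hP ⊢
    rw [← map_zsmul, hP, map_zero]
  refine ⟨{ toFun := fun x => ⟨e x.1, hmem x.1 x.2⟩
            invFun := fun y => ⟨e.symm y.1, hmem' y.1 y.2⟩
            left_inv := fun x => Subtype.ext (e.symm_apply_apply x.1)
            right_inv := fun y => Subtype.ext (e.apply_symm_apply y.1)
            map_add' := fun x y => Subtype.ext (map_add e x.1 y.1) }, ?_⟩
  intro σ x
  exact Subtype.ext (he σ x.1)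

/-- the short Weierstrass curve `y² = x³ + A x + B` over `ℚ` -/
def u5Short (A B : ℚ) : WeierstrassCurve ℚ := ⟨0, 0, 0, A, B⟩

/-- Every curve over `ℚ` is `n`-congruent (indeed isomorphic) to its short model
`y² = x³ - 27 c₄ x - 54 c₆`. -/
lemma u5CongrQ_short (n : ℕ) (E : WeierstrassCurve ℚ) :
    U5CongrQ n E (u5Short (-27 * E.c₄) (-54 * E.c₆)) := by
  -- the change of variables `u = 1/6`, `r = -b₂/12`, `s = -a₁/2`, `t = -(a₃ + r a₁)/2`
  let C : VariableChange ℚ :=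
    ⟨Units.mk0 (1 / 6) (by norm_num), -E.b₂ / 12, -E.a₁ / 2, -(E.a₃ + (-E.b₂ / 12) * E.a₁) / 2⟩
  have h₀ : u5Short (-27 * E.c₄) (-54 * E.c₆) = C • E := by
    rw [variableChange_def]
    simp only [u5Short, C, Units.val_inv_eq_inv_val, Units.val_mk0]
    ext <;> simp only [WeierstrassCurve.c₄, WeierstrassCurve.c₆, WeierstrassCurve.b₂,
      WeierstrassCurve.b₄, WeierstrassCurve.b₆] <;> ring
  exact (u5CongrQ_of_pointEquiv n
    (Fermat.Agent.S05.vcPointBC (E := E) (E' := u5Short (-27 * E.c₄) (-54 * E.c₆)) C h₀ U5Qb)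
    (fun σ P => Fermat.Agent.S05.vcPointBC_smul (S := ℚ) C h₀ σ P)).symm

/-! ### (E') equal `a_ℓ` modulo 5 from WEIL-E -/

/-- **Leaf (E)** = WEIL-E at `p = 5` in the form used by S52: for every prime `ℓ ≠ 5` there is
`σ ∈ Gal(ℚ̄/ℚ)` (a Frobenius element at a place of `ℚ̄` over `ℓ`) such that for EVERY integral model `W`
with good reduction at `ℓ`, `σ² - a_ℓ(W) σ + ℓ = 0` on `W[5](ℚ̄)`. -/
def U5LeafWeil : Prop :=
  ∀ ℓ : ℕ, ℓ.Prime → ℓ ≠ 5 → ∃ σ : U5Qb ≃ₐ[ℚ] U5Qb, ∀ W : WeierstrassCurve ℤ,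
    W.IsGoodPrimeFor ℓ → ∀ x : U5Tors (u5Q W) 5,
      σ • σ • x - W.apOfModel ℓ • σ • x + (ℓ : ℤ) • x = 0

lemma u5_smul_int_comm {E : WeierstrassCurve ℚ} (σ : U5Qb ≃ₐ[ℚ] U5Qb) (k : ℤ)
    (x : U5Tors E 5) : σ • (k • x) = k • (σ • x) :=
  Subtype.ext (Affine.Point.algEquiv_smul_zsmul σ k (x : (E⁄U5Qb).Point))

/-- **(E')**: 5-congruent integral models have congruent `a_ℓ` at all common good primes `ℓ ≠ 5`. -/
theorem u5_ap_congr (hWeil : U5LeafWeil) (W W' : WeierstrassCurve ℤ) (hΔ' : W'.Δ ≠ 0)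
    (h : U5Congr 5 W W') (ℓ : ℕ) (hℓ : ℓ.Prime) (hg : W.IsGoodPrimeFor ℓ)
    (hg' : W'.IsGoodPrimeFor ℓ) (h5 : ℓ ≠ 5) :
    (5 : ℤ) ∣ (W'.apOfModel ℓ - W.apOfModel ℓ) := by
  obtain ⟨σ, hσ⟩ := hWeil ℓ hℓ h5
  obtain ⟨ψ, hψ⟩ := h
  -- a nonzero point of `W'[5]`
  have hΔQ : ((u5Q W')⁄U5Qb).Δ ≠ 0 := by
    apply Fermat.Agent.S51.baseChange_Δ_ne_zero
    show (W'.map (Int.castRingHom ℚ)).Δ ≠ 0
    rw [WeierstrassCurve.map_Δ]
    simpa using hΔ'
  obtain ⟨⟨y, z, hyz⟩⟩ := Fermat.Agent.S51.m5_nontrivial ((u5Q W')⁄U5Qb) hΔQ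
  -- some nonzero `y`
  obtain ⟨y, hy⟩ : ∃ y : U5Tors (u5Q W') 5, y ≠ 0 := by
    by_cases hy0 : y = 0
    · exact ⟨z, fun hz => hyz (hy0.trans hz.symm)⟩
    · exact ⟨y, hy0⟩
  set x : U5Tors (u5Q W) 5 := ψ.symm (σ⁻¹ • y) with hx
  have hψx : σ • ψ x = y := by
    rw [hx, AddEquiv.apply_symm_apply, smul_inv_smul]
  have h1 := congrArg ψ (hσ W hg x)
  simp only [map_add, map_sub, map_zsmul, hψ, map_zero, hψx] at h1
  have h2 := hσ W' hg' (ψ x)
  rw [hψx] at h2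
  have h3 : (W'.apOfModel ℓ - W.apOfModel ℓ) • y = 0 := by
    rw [sub_smul]
    have := congrArg₂ (· - ·) h1 h2
    simp only [sub_zero] at this
    rw [← this]
    abel
  have h5y : (5 : ℤ) • y = 0 := by
    have := y.2
    rw [Submodule.mem_torsionBy_iff] at this
    exact Subtype.ext (by exact_mod_cast this)
  by_contra hnd
  have hcop : IsCoprime (5 : ℤ) (W'.apOfModel ℓ - W.apOfModel ℓ) := by
    rw [Int.isCoprime_iff_gcd_eq_one]
    have hp : Prime (5 : ℤ) := by norm_num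
    exact Int.isCoprime_iff_gcd_eq_one.mp ((Prime.coprime_iff_not_dvd hp).mpr hnd)
  obtain ⟨u, v, huv⟩ := hcop
  apply hy
  have : (u * 5 + v * (W'.apOfModel ℓ - W.apOfModel ℓ)) • y = 0 := by
    rw [add_smul, mul_smul, mul_smul, h5y, h3, smul_zero, smul_zero, add_zero]
  rwa [huv, one_smul] at this

/-! ### the family: integral models -/

/-- `y² = x³ + 3·(u5a W)·x + u5b W` is the short model `x³ - 27 c₄ x - 54 c₆` of `W` -/
def u5a (W : WeierstrassCurve ℤ) : ℤ := -9 * W.c₄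
/-- see `u5a` -/
def u5b (W : WeierstrassCurve ℤ) : ℤ := -54 * W.c₆

/-- the member `(m : n)` of the family of `W`, as an integral model with the same `a₁, a₂, a₃`
(the divisions are exact for `(m, n) ≡ (1, 0)` modulo a multiple of `46656`). -/
def u5Member (W : WeierstrassCurve ℤ) (m n : ℤ) : WeierstrassCurve ℤ :=
  ⟨W.a₁, W.a₂, W.a₃,
    W.a₄ + (u5fA (u5a W) (u5b W) m n - 3 * u5a W) / 1296,
    W.a₆ + ((u5fB (u5a W) (u5b W) m n - u5b W) / 54
      + 72 * W.b₂ * ((u5fA (u5a W) (u5b W) m n - 3 * u5a W) / 1296)) / 864⟩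

/-- **Leaf (J)** (helper11): a semistable integral model has `c₄ ≠ 0` and `c₆ ≠ 0`
(`c₄ c₆ = 0` forces `Δ = ±1`, impossible modulo 4 / because 1728 is not a square). -/
def U5LeafJ : Prop :=
  ∀ W : WeierstrassCurve ℤ, W.Δ ≠ 0 → W.IsSemistableModel → W.c₄ ≠ 0 ∧ W.c₆ ≠ 0

/-- **Leaf (F)** (helper16 2566, sections 2-3): for a suitable modulus `M`, all members `(m, n) ≡ (1, 0)`
mod `M` are integral models with the expected `c₄, c₆`, nonzero discriminant, and are semistable. -/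
def U5LeafFam : Prop :=
  ∀ W : WeierstrassCurve ℤ, W.Δ ≠ 0 → W.IsSemistableModel →
    ∃ M : ℤ, 0 < M ∧ ∀ m n : ℤ, M ∣ m - 1 → M ∣ n →
      -27 * (u5Member W m n).c₄ = u5fA (u5a W) (u5b W) m n ∧
      -54 * (u5Member W m n).c₆ = u5fB (u5a W) (u5b W) m n ∧
      u5fD (u5a W) (u5b W) m n ≠ 0 ∧
      (u5Member W m n).Δ ≠ 0 ∧ (u5Member W m n).IsSemistableModel

/-- **Leaf (U1)** (Klein's icosahedral forms): the members of the family are 5-congruent to the base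
curve, over `ℚ`, for short models. -/
def U5LeafKlein : Prop :=
  ∀ a b m n : ℚ, a ≠ 0 → b ≠ 0 → 4 * (3 * a) ^ 3 + 27 * b ^ 2 ≠ 0 → u5fD a b m n ≠ 0 →
    U5CongrQ 5 (u5Short (3 * a) b) (u5Short (u5fA a b m n) (u5fB a b m n))

/-- **Leaf (G+H)** (no root over `ℚ(t)` + tailored Hilbert irreducibility): on the line `(m, n) = (1, t)`,
`t ∈ Mℤ`, some member has a 3-division polynomial without rational root.
(Proved in `U5/HitAsm.lean` from `U5LeafHitCore` and `U5LeafGen`.) -/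
def U5LeafHit : Prop :=
  ∀ a b : ℤ, 4 * (3 * (a : ℚ)) ^ 3 + 27 * (b : ℚ) ^ 2 ≠ 0 → ∀ M : ℤ, 0 < M →
    ∃ t : ℤ, M ∣ t ∧ ∀ x : ℚ,
      3 * x ^ 4 + 6 * u5fA (a : ℚ) (b : ℚ) 1 (t : ℚ) * x ^ 2
        + 12 * u5fB (a : ℚ) (b : ℚ) 1 (t : ℚ) * x
        - u5fA (a : ℚ) (b : ℚ) 1 (t : ℚ) ^ 2 ≠ 0

/-! ### casts -/

section casts

variable {R S : Type*} [CommRing R] [CommRing S] (f : R →+* S)

lemma u5_map_fA (a b m n : R) : f (u5fA a b m n) = u5fA (f a) (f b) (f m) (f n) := by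
  simp only [u5fA, u5cA0, u5cA1, u5cA2, u5cA3, u5cA4, u5cA5, u5cA6, u5cA7, u5cA8, u5cA9, u5cA10,
    u5cA11, u5cA12, u5cA13, u5cA14, u5cA15, u5cA16, u5cA17, u5cA18, u5cA19, u5cA20,
    map_add, map_sub, map_mul, map_pow, map_neg, map_ofNat, map_one, map_zero]

lemma u5_map_fB (a b m n : R) : f (u5fB a b m n) = u5fB (f a) (f b) (f m) (f n) := by
  simp only [u5fB, u5cB0, u5cB1, u5cB2, u5cB3, u5cB4, u5cB5, u5cB6, u5cB7, u5cB8, u5cB9, u5cB10, u5cB11, u5cB12, u5cB13, u5cB14, u5cB15, u5cB16, u5cB17, u5cB18, u5cB19, u5cB20, u5cB21, u5cB22, u5cB23, u5cB24, u5cB25, u5cB26, u5cB27, u5cB28, u5cB29, u5cB30,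
    map_add, map_sub, map_mul, map_pow, map_neg, map_ofNat, map_one, map_zero]

lemma u5_map_fD (a b m n : R) : f (u5fD a b m n) = u5fD (f a) (f b) (f m) (f n) := by
  simp only [u5fD, u5cD0, u5cD1, u5cD2, u5cD3, u5cD4, u5cD5, u5cD6, u5cD7, u5cD8, u5cD9, u5cD10, u5cD11, u5cD12,
    map_add, map_sub, map_mul, map_pow, map_neg, map_ofNat, map_one, map_zero]

end casts

/-! ### (I): no rational root of `ψ₃` of the short model ⟹ mod-3 irreducible -/

/-- the 3-division polynomial of a general Weierstrass curve versus the one of its short model -/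
lemma u5_psi3_short (E : WeierstrassCurve ℚ) (x : ℚ) :
    3 * (36 * x + 3 * E.b₂) ^ 4 + 6 * (-27 * E.c₄) * (36 * x + 3 * E.b₂) ^ 2
      + 12 * (-54 * E.c₆) * (36 * x + 3 * E.b₂) - (-27 * E.c₄) ^ 2
      = 6 ^ 8 * (3 * x ^ 4 + E.b₂ * x ^ 3 + 3 * E.b₄ * x ^ 2 + 3 * E.b₆ * x + E.b₈) := by
  simp only [WeierstrassCurve.c₄, WeierstrassCurve.c₆, WeierstrassCurve.b₂, WeierstrassCurve.b₄,
    WeierstrassCurve.b₆, WeierstrassCurve.b₈]
  ring

/-- **(I)** If `ψ₃` of the short model of `W` has no rational root then `W[3]` is irreducible. -/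
theorem u5_irred_three (W : WeierstrassCurve ℤ) (hΔ : W.Δ ≠ 0)
    (h : ∀ x : ℚ, 3 * x ^ 4 + 6 * (-27 * (W.c₄ : ℚ)) * x ^ 2 + 12 * (-54 * (W.c₆ : ℚ)) * x
      - (-27 * (W.c₄ : ℚ)) ^ 2 ≠ 0) : W.ModRepIsIrreducible 3 := by
  by_contra hred
  have hΔQ : (u5Q W).Δ ≠ 0 := by
    show (W.map (Int.castRingHom ℚ)).Δ ≠ 0
    rw [WeierstrassCurve.map_Δ]
    simpa using hΔ
  obtain ⟨x₀, hx₀⟩ := Fermat.Agent.S51.exists_rational_root_three (u5Q W) hΔQ hred
  rw [Fermat.Agent.S51.eval_Psi3] at hx₀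
  have key := u5_psi3_short (u5Q W) x₀
  rw [hx₀, mul_zero] at key
  have hc4 : (u5Q W).c₄ = (W.c₄ : ℚ) := by
    show (W.map (Int.castRingHom ℚ)).c₄ = _
    rw [WeierstrassCurve.map_c₄]; rfl
  have hc6 : (u5Q W).c₆ = (W.c₆ : ℚ) := by
    show (W.map (Int.castRingHom ℚ)).c₆ = _
    rw [WeierstrassCurve.map_c₆]; rfl
  rw [hc4, hc6] at key
  exact h _ key

/-! ### assembly of S52 -/

lemma u5Q_c₄ (W : WeierstrassCurve ℤ) : (u5Q W).c₄ = (W.c₄ : ℚ) := by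
  show (W.map (Int.castRingHom ℚ)).c₄ = _
  rw [WeierstrassCurve.map_c₄]; rfl

lemma u5Q_c₆ (W : WeierstrassCurve ℤ) : (u5Q W).c₆ = (W.c₆ : ℚ) := by
  show (W.map (Int.castRingHom ℚ)).c₆ = _
  rw [WeierstrassCurve.map_c₆]; rfl

/-- **S52 from the leaves.** -/
theorem u5_result (hWeil : U5LeafWeil) (hJ : U5LeafJ) (hFam : U5LeafFam) (hKlein : U5LeafKlein)
    (hHit : U5LeafHit) (W : WeierstrassCurve ℤ) (hΔ : W.Δ ≠ 0) (hW : W.IsSemistableModel) :
    ∃ W' : WeierstrassCurve ℤ, W'.Δ ≠ 0 ∧ W'.IsSemistableModel ∧ W'.ModRepIsIrreducible 3 ∧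
      ∀ ℓ : ℕ, ℓ.Prime → W.IsGoodPrimeFor ℓ → W'.IsGoodPrimeFor ℓ → ℓ ≠ 5 →
        (5 : ℤ) ∣ (W'.apOfModel ℓ - W.apOfModel ℓ) := by
  by_cases h3 : W.ModRepIsIrreducible 3
  · exact ⟨W, hΔ, hW, h3, fun ℓ _ _ _ _ => by simp⟩
  obtain ⟨hc4, hc6⟩ := hJ W hΔ hW
  obtain ⟨M, hM, hfam⟩ := hFam W hΔ hW
  -- the discriminant of the short model
  have hdisc : 4 * (3 * (u5a W : ℚ)) ^ 3 + 27 * (u5b W : ℚ) ^ 2 ≠ 0 := by
    have h1 : (4 * (3 * (u5a W : ℚ)) ^ 3 + 27 * (u5b W : ℚ) ^ 2) = -(2 ^ 8 * 3 ^ 12) * (W.Δ : ℚ) := by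
      have := W.c_relation
      have hq : (1728 : ℚ) * (W.Δ : ℚ) = (W.c₄ : ℚ) ^ 3 - (W.c₆ : ℚ) ^ 2 := by exact_mod_cast this
      simp only [u5a, u5b]
      push_cast
      linear_combination (2 ^ 2 * 3 ^ 9 : ℚ) * hq
    rw [h1]
    exact mul_ne_zero (by norm_num) (by exact_mod_cast hΔ)
  obtain ⟨n, hn, hroot⟩ := hHit (u5a W) (u5b W) hdisc M hM
  obtain ⟨m, hm1⟩ : ∃ m : ℤ, m = 1 := ⟨1, rfl⟩
  have hm : M ∣ m - 1 := by rw [hm1]; simp
  have hroot' : ∀ x : ℚ,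
      3 * x ^ 4 + 6 * u5fA (u5a W : ℚ) (u5b W : ℚ) (m : ℚ) (n : ℚ) * x ^ 2
        + 12 * u5fB (u5a W : ℚ) (u5b W : ℚ) (m : ℚ) (n : ℚ) * x
        - u5fA (u5a W : ℚ) (u5b W : ℚ) (m : ℚ) (n : ℚ) ^ 2 ≠ 0 := by
    rw [hm1]; simpa using hroot
  obtain ⟨hA, hB, hD, hΔ', hss'⟩ := hfam m n hm hn
  set W' := u5Member W m n with hW'
  -- rational versions of the coefficient relations
  have hAq : (-27 * (W'.c₄ : ℚ)) = u5fA (u5a W : ℚ) (u5b W : ℚ) (m : ℚ) (n : ℚ) := by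
    have := congrArg (Int.castRingHom ℚ) hA
    rw [u5_map_fA] at this
    simpa using this
  have hBq : (-54 * (W'.c₆ : ℚ)) = u5fB (u5a W : ℚ) (u5b W : ℚ) (m : ℚ) (n : ℚ) := by
    have := congrArg (Int.castRingHom ℚ) hB
    rw [u5_map_fB] at this
    simpa using this
  have hDq : u5fD (u5a W : ℚ) (u5b W : ℚ) (m : ℚ) (n : ℚ) ≠ 0 := by
    have := u5_map_fD (Int.castRingHom ℚ) (u5a W) (u5b W) m n
    simp only [eq_intCast] at this
    rw [← this]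
    exact_mod_cast hD
  refine ⟨W', hΔ', hss', ?_, ?_⟩
  · -- mod-3 irreducibility
    apply u5_irred_three W' hΔ'
    intro x
    rw [hAq, hBq]
    exact hroot' x
  · -- the congruence of the `a_ℓ`
    have ha0 : (u5a W : ℚ) ≠ 0 := by
      simp only [u5a]; push_cast
      exact mul_ne_zero (by norm_num) (by exact_mod_cast hc4)
    have hb0 : (u5b W : ℚ) ≠ 0 := by
      simp only [u5b]; push_cast
      exact mul_ne_zero (by norm_num) (by exact_mod_cast hc6)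
    have hcongr : U5Congr 5 W W' := by
      have h1 := u5CongrQ_short 5 (u5Q W)
      have h2 := hKlein (u5a W) (u5b W) m n ha0 hb0 hdisc hDq
      have h3 := (u5CongrQ_short 5 (u5Q W')).symm
      rw [u5Q_c₄, u5Q_c₆] at h1 h3
      rw [hAq, hBq] at h3
      have e1 : (-27 * (W.c₄ : ℚ)) = 3 * (u5a W : ℚ) := by simp only [u5a]; push_cast; ring
      have e2 : (-54 * (W.c₆ : ℚ)) = (u5b W : ℚ) := by simp only [u5b]; push_cast; ring
      rw [e1, e2] at h1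
      exact (h1.trans h2).trans h3
    exact fun ℓ hℓ hg hg' h5 => u5_ap_congr hWeil W W' hΔ' hcongr ℓ hℓ hg hg' h5

end Fermat.Agent.U5
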