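import Mathlib
import Fermat.Agent.U5.Top

/-!
# Program U (S52) : leaf (F), the family is integral and semistable (on the line `m = 1`)

`u5f_fam` : for `M := 46656 · 2310 · |Δ(W)|` and every `n ∈ M ℤ` the member `u5Member W 1 n` is an
integral model with `-27 c₄' = A(1,n)`, `-54 c₆' = B(1,n)`, `Δ' = Δ · D(1,n)⁵ ≠ 0`, and it is
semistable — modulo the multiplicity lemma `U5LeafMult` ((F0) : over a field in which
`2, 3, 5, 7, 11` are invertible, `disc ≠ 0` and `D(1,n) = 0` imply `A(1,n) ≠ 0`).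
-/

set_option autoImplicit false

namespace Fermat.Agent.U5

open WeierstrassCurve Polynomial

/-- **(F0)**, evaluated form on the chart `m = 1` : `D` and `A` have no common zero. -/
def U5LeafMult : Prop :=
  ∀ (k : Type) [Field k], (2 : k) ≠ 0 → (3 : k) ≠ 0 → (5 : k) ≠ 0 → (7 : k) ≠ 0 → (11 : k) ≠ 0 →
    ∀ a b n : k, 4 * (3 * a) ^ 3 + 27 * b ^ 2 ≠ 0 → u5fD a b 1 n = 0 → u5fA a b 1 n ≠ 0

/-- the leaf (F) on the line `m = 1` -/
def U5LeafFamLine : Prop :=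
  ∀ W : WeierstrassCurve ℤ, W.Δ ≠ 0 → W.IsSemistableModel →
    ∃ M : ℤ, 0 < M ∧ ∀ n : ℤ, M ∣ n →
      -27 * (u5Member W 1 n).c₄ = u5fA (u5a W) (u5b W) 1 n ∧
      -54 * (u5Member W 1 n).c₆ = u5fB (u5a W) (u5b W) 1 n ∧
      u5fD (u5a W) (u5b W) 1 n ≠ 0 ∧
      (u5Member W 1 n).Δ ≠ 0 ∧ (u5Member W 1 n).IsSemistableModel

/-! ### congruences modulo `n` -/

theorem u5f_dvd_fA (a b n : ℤ) : n ∣ u5fA a b 1 n - 3 * a := by
  have h1 := Polynomial.sub_dvd_eval_sub n 0 (u5fA (C a) (C b) 1 X : ℤ[X])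
  have e : ∀ t : ℤ, (u5fA (C a) (C b) 1 X : ℤ[X]).eval t = u5fA a b 1 t := by
    intro t
    have := u5_map_fA (Polynomial.evalRingHom t) (C a) (C b) 1 X
    simpa using this
  rw [e, e, sub_zero] at h1
  have h0 : u5fA a b 1 (0 : ℤ) = 3 * a := by
    simp [u5fA, u5cA0]
  rwa [h0] at h1

theorem u5f_dvd_fB (a b n : ℤ) : n ∣ u5fB a b 1 n - b := by
  have h1 := Polynomial.sub_dvd_eval_sub n 0 (u5fB (C a) (C b) 1 X : ℤ[X])
  have e : ∀ t : ℤ, (u5fB (C a) (C b) 1 X : ℤ[X]).eval t = u5fB a b 1 t := by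
    intro t
    have := u5_map_fB (Polynomial.evalRingHom t) (C a) (C b) 1 X
    simpa using this
  rw [e, e, sub_zero] at h1
  have h0 : u5fB a b 1 (0 : ℤ) = b := by
    simp [u5fB, u5cB0]
  rwa [h0] at h1

theorem u5f_dvd_fD (a b n : ℤ) : n ∣ u5fD a b 1 n - 1 := by
  have h1 := Polynomial.sub_dvd_eval_sub n 0 (u5fD (C a) (C b) 1 X : ℤ[X])
  have e : ∀ t : ℤ, (u5fD (C a) (C b) 1 X : ℤ[X]).eval t = u5fD a b 1 t := by
    intro t
    have := u5_map_fD (Polynomial.evalRingHom t) (C a) (C b) 1 X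
    simpa using this
  rw [e, e, sub_zero] at h1
  have h0 : u5fD a b 1 (0 : ℤ) = 1 := by
    simp [u5fD, u5cD0]
  rwa [h0] at h1

/-! ### the member as an integral model -/

/-- the invariants of the member, given the two exact quotients -/
theorem u5f_member_c (W : WeierstrassCurve ℤ) (n N₀ cA cB : ℤ)
    (hA : u5fA (u5a W) (u5b W) 1 n - 3 * u5a W = 46656 * N₀ * cA)
    (hB : u5fB (u5a W) (u5b W) 1 n - u5b W = 46656 * N₀ * cB) :
    u5Member W 1 n = ⟨W.a₁, W.a₂, W.a₃, W.a₄ + 36 * N₀ * cA,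
      W.a₆ + N₀ * (cB + 3 * cA * W.b₂)⟩ := by
  have h4 : (u5fA (u5a W) (u5b W) 1 n - 3 * u5a W) / 1296 = 36 * N₀ * cA := by
    rw [hA]
    exact Int.ediv_eq_of_eq_mul_right (by norm_num) (by ring)
  have h6 : ((u5fB (u5a W) (u5b W) 1 n - u5b W) / 54
      + 72 * W.b₂ * ((u5fA (u5a W) (u5b W) 1 n - 3 * u5a W) / 1296)) / 864 =
      N₀ * (cB + 3 * cA * W.b₂) := by
    rw [h4, hB]
    have : (46656 * N₀ * cB) / 54 = 864 * N₀ * cB :=
      Int.ediv_eq_of_eq_mul_right (by norm_num) (by ring)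
    rw [this]
    exact Int.ediv_eq_of_eq_mul_right (by norm_num) (by ring)
  unfold u5Member
  rw [h6, h4]

theorem u5f_member_c₄ (W : WeierstrassCurve ℤ) (N₀ cA cB : ℤ) :
    (⟨W.a₁, W.a₂, W.a₃, W.a₄ + 36 * N₀ * cA,
      W.a₆ + N₀ * (cB + 3 * cA * W.b₂)⟩ : WeierstrassCurve ℤ).c₄ = W.c₄ - 1728 * N₀ * cA := by
  simp only [WeierstrassCurve.c₄, WeierstrassCurve.b₂, WeierstrassCurve.b₄]
  ring

theorem u5f_member_c₆ (W : WeierstrassCurve ℤ) (N₀ cA cB : ℤ) :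
    (⟨W.a₁, W.a₂, W.a₃, W.a₄ + 36 * N₀ * cA,
      W.a₆ + N₀ * (cB + 3 * cA * W.b₂)⟩ : WeierstrassCurve ℤ).c₆ = W.c₆ - 864 * N₀ * cB := by
  simp only [WeierstrassCurve.c₆, WeierstrassCurve.b₂, WeierstrassCurve.b₄,
    WeierstrassCurve.b₆]
  ring

/-! ### the discriminant -/

/-- `4 (3a)³ + 27 b² = -2⁸ 3¹² Δ` for the short model -/
theorem u5f_disc (W : WeierstrassCurve ℤ) :
    4 * (3 * u5a W) ^ 3 + 27 * u5b W ^ 2 = -136048896 * W.Δ := by
  have h := W.c_relation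
  simp only [u5a, u5b]
  linear_combination (78732 : ℤ) * h

/-- `p ∣ 46656 ⟹ p ∣ 1728` -/
theorem u5f_dvd_1728 {p : ℕ} (hp : p.Prime) (h : (p : ℤ) ∣ 46656) : (p : ℤ) ∣ 1728 := by
  have hp' : Prime (p : ℤ) := Nat.prime_iff_prime_int.mp hp
  have e : (46656 : ℤ) = 2 ^ 6 * 3 ^ 6 := by norm_num
  rw [e] at h
  rcases hp'.dvd_or_dvd h with h2 | h3
  · have := hp'.dvd_of_dvd_pow h2
    exact dvd_trans this (by norm_num)
  · have := hp'.dvd_of_dvd_pow h3
    exact dvd_trans this (by norm_num)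

/-! ### the leaf -/

set_option maxHeartbeats 1000000 in
/-- **Leaf (F) on the line `m = 1`**, from the multiplicity lemma (F0). -/
theorem u5f_fam (hmult : U5LeafMult) : U5LeafFamLine := by
  intro W hΔ hW
  set N₀ : ℤ := 2310 * (W.Δ.natAbs : ℤ) with hN₀
  have hΔabs : 0 < (W.Δ.natAbs : ℤ) := by
    exact_mod_cast Int.natAbs_pos.mpr hΔ
  have hN₀pos : 0 < N₀ := by positivity
  refine ⟨46656 * N₀, by positivity, ?_⟩
  intro n hn
  -- the three quotients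
  obtain ⟨cA, hA⟩ := dvd_trans hn (u5f_dvd_fA (u5a W) (u5b W) n)
  obtain ⟨cB, hB⟩ := dvd_trans hn (u5f_dvd_fB (u5a W) (u5b W) n)
  obtain ⟨cD, hD⟩ := dvd_trans hn (u5f_dvd_fD (u5a W) (u5b W) n)
  have hsyz := u5_syz (u5a W) (u5b W) (1 : ℤ) n
  have hdisc := u5f_disc W
  generalize hAv : u5fA (u5a W) (u5b W) 1 n = Av at *
  generalize hBv : u5fB (u5a W) (u5b W) 1 n = Bv at *
  generalize hDv : u5fD (u5a W) (u5b W) 1 n = Dv at *
  have hmem := u5f_member_c W n N₀ cA cB (by rw [hAv]; exact hA) (by rw [hBv]; exact hB)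
  rw [hmem]
  set W' : WeierstrassCurve ℤ := ⟨W.a₁, W.a₂, W.a₃, W.a₄ + 36 * N₀ * cA,
      W.a₆ + N₀ * (cB + 3 * cA * W.b₂)⟩ with hW'
  have hc4 : W'.c₄ = W.c₄ - 1728 * N₀ * cA := u5f_member_c₄ W N₀ cA cB
  have hc6 : W'.c₆ = W.c₆ - 864 * N₀ * cB := u5f_member_c₆ W N₀ cA cB
  have hA' : -27 * W'.c₄ = Av := by
    rw [hc4]
    have := hA
    simp only [u5a] at this
    linarith
  have hB' : -54 * W'.c₆ = Bv := by
    rw [hc6]
    have := hB
    simp only [u5b] at this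
    linarith
  -- `D ≠ 0`
  have hD0 : Dv ≠ 0 := by
    intro h0
    rw [h0] at hD
    have h1 : (46656 * N₀) ∣ (1 : ℤ) := ⟨-cD, by linarith⟩
    have h2 := Int.le_of_dvd one_pos h1
    nlinarith
  -- `Δ' = Δ D⁵`
  have hΔ' : W'.Δ = W.Δ * Dv ^ 5 := by
    have hrel' := W'.c_relation
    have h1 : 4 * Av ^ 3 + 27 * Bv ^ 2 = -136048896 * W'.Δ := by
      rw [← hA', ← hB']
      linear_combination (78732 : ℤ) * hrel'
    rw [h1, hdisc] at hsyz
    have h2 : (-136048896 : ℤ) * W'.Δ = -136048896 * (W.Δ * Dv ^ 5) := by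
      rw [hsyz]; ring
    exact mul_left_cancel₀ (by norm_num) h2
  refine ⟨hA', hB', hD0, ?_, ?_⟩
  · rw [hΔ']
    exact mul_ne_zero hΔ (pow_ne_zero 5 hD0)
  · intro p hp hpΔ'
    have hp' : Prime (p : ℤ) := Nat.prime_iff_prime_int.mp hp
    rw [hΔ'] at hpΔ'
    by_cases hpM : (p : ℤ) ∣ 46656 * N₀
    · -- `p ∣ M` : inherit from `W`
      have hpD : ¬ (p : ℤ) ∣ Dv := by
        intro h
        have h1 : (p : ℤ) ∣ Dv - 1 := by rw [hD]; exact Dvd.dvd.mul_right hpM _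
        have h2 : (p : ℤ) ∣ 1 := by
          have := dvd_sub h h1
          rwa [sub_sub_cancel] at this
        exact hp'.not_dvd_one h2
      have hpΔ : (p : ℤ) ∣ W.Δ := by
        rcases hp'.dvd_or_dvd hpΔ' with h | h
        · exact h
        · exact absurd (hp'.dvd_of_dvd_pow h) hpD
      have hnc4 := hW p hp hpΔ
      intro hc
      apply hnc4
      rw [hc4] at hc
      have h3 : (p : ℤ) ∣ 1728 * N₀ * cA := by
        rcases hp'.dvd_or_dvd hpM with h | h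
        · exact Dvd.dvd.mul_right (Dvd.dvd.mul_right (u5f_dvd_1728 hp h) _) _
        · exact Dvd.dvd.mul_right (Dvd.dvd.mul_left h _) _
      have := dvd_add hc h3
      rwa [sub_add_cancel] at this
    · -- `p ∤ M` : the multiplicity lemma over `𝔽_p`
      have : Fact p.Prime := ⟨hp⟩
      have hnd : ∀ d : ℤ, d ∣ 46656 * N₀ → (p : ℤ) ∣ d → False := fun d hd hpd =>
        hpM (dvd_trans hpd hd)
      have hN₀M : N₀ ∣ 46656 * N₀ := Dvd.intro_left _ rfl
      have h2310 : (2310 : ℤ) ∣ 46656 * N₀ := dvd_trans (Dvd.intro _ rfl) hN₀M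
      have hne : ∀ d : ℕ, (d : ℤ) ∣ 2310 → (p : ℤ) ∣ (d : ℤ) → False := fun d hd hpd =>
        hnd d (dvd_trans hd h2310) hpd
      have hk : ∀ d : ℕ, (d : ℤ) ∣ 2310 → ((d : ℕ) : ZMod p) ≠ 0 := by
        intro d hd h0
        rw [ZMod.natCast_eq_zero_iff] at h0
        exact hne d hd (Int.natCast_dvd_natCast.mpr h0)
      have hpΔ : ¬ (p : ℤ) ∣ W.Δ := by
        intro h
        refine hnd (W.Δ.natAbs : ℤ) (dvd_trans (Dvd.intro_left _ rfl) hN₀M) ?_
        exact Int.dvd_natAbs.mpr h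
      have hpD : (p : ℤ) ∣ Dv := by
        rcases hp'.dvd_or_dvd hpΔ' with h | h
        · exact absurd h hpΔ
        · exact hp'.dvd_of_dvd_pow h
      -- reduce mod `p`
      have h2 : (2 : ZMod p) ≠ 0 := by simpa using hk 2 (by norm_num)
      have h3 : (3 : ZMod p) ≠ 0 := by simpa using hk 3 (by norm_num)
      have h5 : (5 : ZMod p) ≠ 0 := by simpa using hk 5 (by norm_num)
      have h7 : (7 : ZMod p) ≠ 0 := by simpa using hk 7 (by norm_num)
      have h11 : (11 : ZMod p) ≠ 0 := by simpa using hk 11 (by norm_num)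
      have hdiscp : 4 * (3 * ((u5a W : ℤ) : ZMod p)) ^ 3 + 27 * ((u5b W : ℤ) : ZMod p) ^ 2 ≠ 0 := by
        have e : 4 * (3 * ((u5a W : ℤ) : ZMod p)) ^ 3 + 27 * ((u5b W : ℤ) : ZMod p) ^ 2 =
            ((4 * (3 * u5a W) ^ 3 + 27 * u5b W ^ 2 : ℤ) : ZMod p) := by push_cast; ring
        rw [e, hdisc]
        intro h0
        rw [ZMod.intCast_zmod_eq_zero_iff_dvd] at h0
        rcases hp'.dvd_or_dvd h0 with h | h
        · have e2 : (-136048896 : ℤ) = -(2 ^ 8 * 3 ^ 12) := by norm_num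
          rw [e2, dvd_neg] at h
          rcases hp'.dvd_or_dvd h with h | h
          · exact hne 2 (by norm_num) (by exact_mod_cast hp'.dvd_of_dvd_pow h)
          · exact hne 3 (by norm_num) (by exact_mod_cast hp'.dvd_of_dvd_pow h)
        · exact hpΔ h
      have hDp : u5fD ((u5a W : ℤ) : ZMod p) ((u5b W : ℤ) : ZMod p) 1 ((n : ℤ) : ZMod p) = 0 := by
        have := u5_map_fD (Int.castRingHom (ZMod p)) (u5a W) (u5b W) 1 n
        rw [hDv] at this
        simp only [eq_intCast, Int.cast_one] at this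
        rw [← this]
        exact (ZMod.intCast_zmod_eq_zero_iff_dvd _ _).mpr hpD
      have hAp := hmult (ZMod p) h2 h3 h5 h7 h11 _ _ _ hdiscp hDp
      intro hc
      apply hAp
      have := u5_map_fA (Int.castRingHom (ZMod p)) (u5a W) (u5b W) 1 n
      rw [hAv] at this
      simp only [eq_intCast, Int.cast_one] at this
      rw [← this]
      refine (ZMod.intCast_zmod_eq_zero_iff_dvd _ _).mpr ?_
      rw [← hA']
      exact Dvd.dvd.mul_left hc _

end Fermat.Agent.U5
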