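import Mathlib
import Fermat.Agent.U5.Top
import Fermat.Agent.U5.Fam

/-!
# Program U (S52) : the final assembly with the leaf (F) in its line form (prefix `u5z`)

`U5LeafFam` of `U5/Top.lean` quantifies over all `(m, n) ≡ (1, 0) mod M` and is false without a
coprimality hypothesis; `u5_result` only uses `m = 1`.  Here the same proof is run with
`U5LeafFamLine` (`U5/Fam.lean`), leaving `U5/Top.lean` untouched.
-/

set_option autoImplicit false
set_option linter.unusedSimpArgs false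

namespace Fermat.Agent.U5

open WeierstrassCurve WeierstrassCurve.Affine

/-- **S52 from the leaves**, with the leaf (F) on the line `m = 1` (`U5LeafFamLine`, `U5/Fam.lean`);
the proof is the one of `u5_result` (`U5/Top.lean`), which only ever uses `m = 1`. -/
theorem u5z_result_line (hWeil : U5LeafWeil) (hJ : U5LeafJ) (hFam : U5LeafFamLine)
    (hKlein : U5LeafKlein)
    (hHit : U5LeafHit) (W : WeierstrassCurve ℤ) (hΔ : W.Δ ≠ 0) (hW : W.IsSemistableModel) :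
    ∃ W' : WeierstrassCurve ℤ, W'.Δ ≠ 0 ∧ W'.IsSemistableModel ∧ W'.ModRepIsIrreducible 3 ∧
      ∀ ℓ : ℕ, ℓ.Prime → W.IsGoodPrimeFor ℓ → W'.IsGoodPrimeFor ℓ → ℓ ≠ 5 →
        (5 : ℤ) ∣ (W'.apOfModel ℓ - W.apOfModel ℓ) := by
  by_cases h3 : W.ModRepIsIrreducible 3
  · exact ⟨W, hΔ, hW, h3, fun ℓ _ _ _ _ => by simp⟩
  obtain ⟨hc4, hc6⟩ := hJ W hΔ hW
  obtain ⟨M, hM, hfam⟩ := hFam W hΔ hW
  -- the discriminant of the short model
  have hdisc : 4 * (3 * (u5a W : ℚ)) ^ 3 + 27 * (u5b W : ℚ) ^ 2 ≠ 0 := by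
    have h1 : (4 * (3 * (u5a W : ℚ)) ^ 3 + 27 * (u5b W : ℚ) ^ 2) = -(2 ^ 8 * 3 ^ 12) * (W.Δ : ℚ) := by
      have := W.c_relation
      have hq : (1728 : ℚ) * (W.Δ : ℚ) = (W.c₄ : ℚ) ^ 3 - (W.c₆ : ℚ) ^ 2 := by exact_mod_cast this
      simp only [u5a, u5b]
      push_cast
      linear_combination (2 ^ 2 * 3 ^ 9 : ℚ) * hq
    rw [h1]
    exact mul_ne_zero (by norm_num) (by exact_mod_cast hΔ)
  obtain ⟨n, hn, hroot⟩ := hHit (u5a W) (u5b W) hdisc M hM
  obtain ⟨m, hm1⟩ : ∃ m : ℤ, m = 1 := ⟨1, rfl⟩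
  have hroot' : ∀ x : ℚ,
      3 * x ^ 4 + 6 * u5fA (u5a W : ℚ) (u5b W : ℚ) (m : ℚ) (n : ℚ) * x ^ 2
        + 12 * u5fB (u5a W : ℚ) (u5b W : ℚ) (m : ℚ) (n : ℚ) * x
        - u5fA (u5a W : ℚ) (u5b W : ℚ) (m : ℚ) (n : ℚ) ^ 2 ≠ 0 := by
    rw [hm1]; simpa using hroot
  obtain ⟨hA, hB, hD, hΔ', hss'⟩ :
      -27 * (u5Member W m n).c₄ = u5fA (u5a W) (u5b W) m n ∧
      -54 * (u5Member W m n).c₆ = u5fB (u5a W) (u5b W) m n ∧
      u5fD (u5a W) (u5b W) m n ≠ 0 ∧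
      (u5Member W m n).Δ ≠ 0 ∧ (u5Member W m n).IsSemistableModel := by
    rw [hm1]; exact hfam n hn
  set W' := u5Member W m n with hW'
  -- rational versions of the coefficient relations
  have hAq : (-27 * (W'.c₄ : ℚ)) = u5fA (u5a W : ℚ) (u5b W : ℚ) (m : ℚ) (n : ℚ) := by
    have := congrArg (Int.castRingHom ℚ) hA
    rw [u5_map_fA] at this
    simpa using this
  have hBq : (-54 * (W'.c₆ : ℚ)) = u5fB (u5a W : ℚ) (u5b W : ℚ) (m : ℚ) (n : ℚ) := by
    have := congrArg (Int.castRingHom ℚ) hB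
    rw [u5_map_fB] at this
    simpa using this
  have hDq : u5fD (u5a W : ℚ) (u5b W : ℚ) (m : ℚ) (n : ℚ) ≠ 0 := by
    have := u5_map_fD (Int.castRingHom ℚ) (u5a W) (u5b W) m n
    simp only [eq_intCast] at this
    rw [← this]
    exact_mod_cast hD
  refine ⟨W', hΔ', hss', ?_, ?_⟩
  · -- mod-3 irreducibility
    apply u5_irred_three W' hΔ'
    intro x
    rw [hAq, hBq]
    exact hroot' x
  · -- the congruence of the `a_ℓ`
    have ha0 : (u5a W : ℚ) ≠ 0 := by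
      simp only [u5a]; push_cast
      exact mul_ne_zero (by norm_num) (by exact_mod_cast hc4)
    have hb0 : (u5b W : ℚ) ≠ 0 := by
      simp only [u5b]; push_cast
      exact mul_ne_zero (by norm_num) (by exact_mod_cast hc6)
    have hcongr : U5Congr 5 W W' := by
      have h1 := u5CongrQ_short 5 (u5Q W)
      have h2 := hKlein (u5a W) (u5b W) m n ha0 hb0 hdisc hDq
      have h3 := (u5CongrQ_short 5 (u5Q W')).symm
      rw [u5Q_c₄, u5Q_c₆] at h1 h3
      rw [hAq, hBq] at h3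
      have e1 : (-27 * (W.c₄ : ℚ)) = 3 * (u5a W : ℚ) := by simp only [u5a]; push_cast; ring
      have e2 : (-54 * (W.c₆ : ℚ)) = (u5b W : ℚ) := by simp only [u5b]; push_cast; ring
      rw [e1, e2] at h1
      exact (h1.trans h2).trans h3
    exact fun ℓ hℓ hg hg' h5 => u5_ap_congr hWeil W W' hΔ' hcongr ℓ hℓ hg hg' h5

end Fermat.Agent.U5
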