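import Fermat.Agent.U5.Top

/-!
# Program U: `U5LeafHit` from the tailored Hilbert irreducibility statement (H) and the generic
statement (G)

* `U5LeafHitCore` (H) : helper11's literal statement (board 2575): polynomials `A, B ∈ ℚ[X]` of degree
  `≤ 20, 30` with nondegenerate leading coefficients, integral values on `Nℤ`, such that
  `3P⁴ + 6AP² + 12BP - A² = 0` has no solution `P ∈ ℚ[X]`: then for arbitrarily large `t ∈ Nℤ` the quartic
  `3x⁴ + 6A(t)x² + 12B(t)x - A(t)²` has no rational root.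
* `U5LeafGen` (G) : on the line `(m, n) = (1, X)` the 3-division polynomial of the family has no root
  in `ℚ[X]`.
-/

set_option autoImplicit false
set_option linter.unusedSimpArgs false

namespace Fermat.Agent.U5

open Polynomial

/-- **Leaf (H)**: tailored Hilbert irreducibility (statement of helper11, 2575). -/
def U5LeafHitCore : Prop :=
  ∀ A B : ℚ[X], A.natDegree ≤ 20 → B.natDegree ≤ 30 →
    4 * A.coeff 20 ^ 3 + 27 * B.coeff 30 ^ 2 ≠ 0 →
    ∀ N : ℤ, 0 < N →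
    (∀ t : ℤ, N ∣ t → (∃ α : ℤ, A.eval (t : ℚ) = α) ∧ ∃ β : ℤ, B.eval (t : ℚ) = β) →
    (¬ ∃ P : ℚ[X], 3 * P ^ 4 + 6 * A * P ^ 2 + 12 * B * P - A ^ 2 = 0) →
    ∀ T₀ : ℤ, ∃ t : ℤ, N ∣ t ∧ T₀ ≤ t ∧ ∀ x : ℚ,
      3 * x ^ 4 + 6 * A.eval (t : ℚ) * x ^ 2 + 12 * B.eval (t : ℚ) * x - A.eval (t : ℚ) ^ 2 ≠ 0

/-- the polynomial `A(1, X)` of the family -/
noncomputable def u5LineA (a b : ℚ) : ℚ[X] := u5fA (C a) (C b) 1 X
/-- the polynomial `B(1, X)` of the family -/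
noncomputable def u5LineB (a b : ℚ) : ℚ[X] := u5fB (C a) (C b) 1 X
/-- the polynomial `D(1, X)` of the family -/
noncomputable def u5LineD (a b : ℚ) : ℚ[X] := u5fD (C a) (C b) 1 X

/-- **Leaf (G)**: no root of the 3-division polynomial over `ℚ[X]` (hence over `ℚ(X)`). -/
def U5LeafGen : Prop :=
  ∀ a b : ℚ, 4 * (3 * a) ^ 3 + 27 * b ^ 2 ≠ 0 →
    ¬ ∃ P : ℚ[X], 3 * P ^ 4 + 6 * u5LineA a b * P ^ 2 + 12 * u5LineB a b * P - u5LineA a b ^ 2 = 0

lemma u5LineA_eval (a b t : ℚ) : (u5LineA a b).eval t = u5fA a b 1 t := by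
  have := u5_map_fA (Polynomial.evalRingHom t) (C a) (C b) 1 X
  simpa [u5LineA] using this

lemma u5LineB_eval (a b t : ℚ) : (u5LineB a b).eval t = u5fB a b 1 t := by
  have := u5_map_fB (Polynomial.evalRingHom t) (C a) (C b) 1 X
  simpa [u5LineB] using this

lemma u5LineA_natDegree (a b : ℚ) : (u5LineA a b).natDegree ≤ 20 := by
  unfold u5LineA u5fA
  simp only [u5cA0, u5cA1, u5cA2, u5cA3, u5cA4, u5cA5, u5cA6, u5cA7, u5cA8, u5cA9, u5cA10, u5cA11, u5cA12, u5cA13, u5cA14, u5cA15, u5cA16, u5cA17, u5cA18, u5cA19, u5cA20]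
  compute_degree!

lemma u5LineA_coeff (a b : ℚ) : (u5LineA a b).coeff 20 = u5cA20 a b := by
  unfold u5LineA u5fA
  simp only [u5cA0, u5cA1, u5cA2, u5cA3, u5cA4, u5cA5, u5cA6, u5cA7, u5cA8, u5cA9, u5cA10, u5cA11, u5cA12, u5cA13, u5cA14, u5cA15, u5cA16, u5cA17, u5cA18, u5cA19, u5cA20]
  compute_degree!

lemma u5LineB_natDegree (a b : ℚ) : (u5LineB a b).natDegree ≤ 30 := by
  unfold u5LineB u5fB
  simp only [u5cB0, u5cB1, u5cB2, u5cB3, u5cB4, u5cB5, u5cB6, u5cB7, u5cB8, u5cB9, u5cB10, u5cB11, u5cB12, u5cB13, u5cB14, u5cB15, u5cB16, u5cB17, u5cB18, u5cB19, u5cB20, u5cB21, u5cB22, u5cB23, u5cB24, u5cB25, u5cB26, u5cB27, u5cB28, u5cB29, u5cB30]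
  compute_degree!

lemma u5LineB_coeff (a b : ℚ) : (u5LineB a b).coeff 30 = u5cB30 a b := by
  unfold u5LineB u5fB
  simp only [u5cB0, u5cB1, u5cB2, u5cB3, u5cB4, u5cB5, u5cB6, u5cB7, u5cB8, u5cB9, u5cB10, u5cB11, u5cB12, u5cB13, u5cB14, u5cB15, u5cB16, u5cB17, u5cB18, u5cB19, u5cB20, u5cB21, u5cB22, u5cB23, u5cB24, u5cB25, u5cB26, u5cB27, u5cB28, u5cB29, u5cB30]
  compute_degree!

/-- `(0 : 1)` is never a rational cusp: `D(0,1) = 91125 a⁶ + 48384 a³ b² + 6400 b⁴` has discriminant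
`2¹⁰·3⁶·11` as a quadratic in `b²/a³`, and `11` is not a rational square. -/
lemma u5cD12_ne_zero (a b : ℚ) (h : a ≠ 0 ∨ b ≠ 0) : u5cD12 a b ≠ 0 := by
  intro h0
  simp only [u5cD12] at h0
  by_cases ha : a = 0
  · subst ha
    have hb : b ≠ 0 := by tauto
    have : b ^ 4 = 0 := by linarith
    exact hb (pow_eq_zero_iff (by norm_num) |>.mp this)
  · have hsq : ((12800 * b ^ 2 + 48384 * a ^ 3) / (864 * a ^ 3)) ^ 2 = 11 := by
      have ha3 : (864 * a ^ 3) ≠ 0 := mul_ne_zero (by norm_num) (pow_ne_zero _ ha)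
      rw [div_pow, div_eq_iff (pow_ne_zero _ ha3)]
      linear_combination (25600 : ℚ) * h0
    have hirr : Irrational (Real.sqrt 11) := by
      have := Nat.Prime.irrational_sqrt (show Nat.Prime 11 by norm_num)
      simpa using this
    set q : ℚ := (12800 * b ^ 2 + 48384 * a ^ 3) / (864 * a ^ 3) with hq
    have hq2 : ((q : ℝ)) ^ 2 = 11 := by exact_mod_cast hsq
    have : Real.sqrt 11 = |(q : ℝ)| := by
      rw [← hq2, Real.sqrt_sq_eq_abs]
    rw [this] at hirr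
    have habs : |(q : ℝ)| = ((|q| : ℚ) : ℝ) := by push_cast; rfl
    rw [habs] at hirr
    exact hirr.ne_rat _ rfl

lemma u5fA_zero_one (a b : ℚ) : u5fA a b 0 1 = u5cA20 a b := by simp [u5fA]
lemma u5fB_zero_one (a b : ℚ) : u5fB a b 0 1 = u5cB30 a b := by simp [u5fB]
lemma u5fD_zero_one (a b : ℚ) : u5fD a b 0 1 = u5cD12 a b := by simp [u5fD]

/-- **(G) + (H) ⟹ `U5LeafHit`.** -/
theorem u5_leaf_hit (hH : U5LeafHitCore) (hG : U5LeafGen) : U5LeafHit := by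
  intro a b hdisc M hM
  have hab : (a : ℚ) ≠ 0 ∨ (b : ℚ) ≠ 0 := by
    by_contra hcon
    push Not at hcon
    apply hdisc
    rw [hcon.1, hcon.2]; ring
  have hlead : 4 * (u5LineA a b).coeff 20 ^ 3 + 27 * (u5LineB a b).coeff 30 ^ 2 ≠ 0 := by
    rw [u5LineA_coeff, u5LineB_coeff, ← u5fA_zero_one, ← u5fB_zero_one, u5_syz, u5fD_zero_one]
    exact mul_ne_zero hdisc (pow_ne_zero _ (u5cD12_ne_zero _ _ hab))
  have hint : ∀ t : ℤ, M ∣ t → (∃ α : ℤ, (u5LineA a b).eval (t : ℚ) = α) ∧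
      ∃ β : ℤ, (u5LineB a b).eval (t : ℚ) = β := by
    intro t _
    refine ⟨⟨u5fA a b 1 t, ?_⟩, ⟨u5fB a b 1 t, ?_⟩⟩
    · rw [u5LineA_eval]
      have := u5_map_fA (Int.castRingHom ℚ) a b 1 t
      simpa using this.symm
    · rw [u5LineB_eval]
      have := u5_map_fB (Int.castRingHom ℚ) a b 1 t
      simpa using this.symm
  obtain ⟨t, hMt, -, ht⟩ := hH (u5LineA a b) (u5LineB a b) (u5LineA_natDegree _ _)
    (u5LineB_natDegree _ _) hlead M hM hint (hG a b hdisc) 0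
  refine ⟨t, hMt, fun x => ?_⟩
  have := ht x
  rwa [u5LineA_eval, u5LineB_eval] at this

end Fermat.Agent.U5
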