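import Mathlib
import Fermat.Agent.U5.Top

/-!
# Program U (S52) : leaf (J)

A semistable integral Weierstrass model with `Δ ≠ 0` has `c₄ ≠ 0` and `c₆ ≠ 0` : if `c₄ c₆ = 0`
then no prime divides `Δ` (such a prime would divide `c₄`), so `Δ = ±1`;  `c₄ = 0` gives
`c₆² = ∓1728`, impossible;  `c₆ = 0` gives `c₄³ = ±1728`, `c₄ = ±12`, `b₂² = ±12 + 24 b₄`, hence
`b₂ = 6k` with `k` odd, `b₂ ≡ 2 mod 4`, whereas `b₂ = a₁² + 4a₂ ≡ 0, 1 mod 4`.
-/

set_option autoImplicit false

namespace Fermat.Agent.U5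

open WeierstrassCurve

/-- an integer without prime divisors is a unit -/
theorem u5j_isUnit_of_no_prime (d : ℤ) (hd : ∀ p : ℕ, p.Prime → ¬ (p : ℤ) ∣ d) :
    d = 1 ∨ d = -1 := by
  have h1 : d.natAbs = 1 := by
    by_contra hne
    obtain ⟨p, hp, hpd⟩ := Nat.exists_prime_and_dvd hne
    exact hd p hp (Int.natCast_dvd.mpr hpd)
  rcases Int.natAbs_eq d with h | h
  · left; rw [h, h1]; rfl
  · right; rw [h, h1]; rfl

/-- `1728` is not a square and `-1728` is negative -/
theorem u5j_sq_ne (x : ℤ) : x ^ 2 ≠ 1728 ∧ x ^ 2 ≠ -1728 := by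
  constructor
  · intro h
    have h1 : x.natAbs ^ 2 = 1728 := by
      have := congrArg Int.natAbs h
      rw [Int.natAbs_pow] at this
      simpa using this
    have h2 : x.natAbs < 42 := by
      by_contra hge
      rw [not_lt] at hge
      have : 42 ^ 2 ≤ x.natAbs ^ 2 := Nat.pow_le_pow_left hge 2
      omega
    have h3 : 41 < x.natAbs := by
      by_contra hle
      rw [not_lt] at hle
      have : x.natAbs ^ 2 ≤ 41 ^ 2 := Nat.pow_le_pow_left hle 2
      omega
    omega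
  · intro h
    have := sq_nonneg x
    omega

/-- `c₄³ = ±1728` forces `c₄ = ±12` -/
theorem u5j_cube (x : ℤ) (h : x ^ 3 = 1728 ∨ x ^ 3 = -1728) : x = 12 ∨ x = -12 := by
  rcases h with h | h
  · left
    have h1 : x ≤ 12 := by
      by_contra hgt
      rw [not_le] at hgt
      have h2 : (13 : ℤ) ^ 3 ≤ x ^ 3 := pow_le_pow_left₀ (by norm_num) hgt 3
      omega
    have h2 : 12 ≤ x := by
      by_contra hlt
      rw [not_le] at hlt
      have h3 : x ≤ 11 := by omega
      by_cases hx0 : 0 ≤ x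
      · have h4 : x ^ 3 ≤ (11 : ℤ) ^ 3 := pow_le_pow_left₀ hx0 h3 3
        omega
      · rw [not_le] at hx0
        have h4 : x ^ 3 < 0 := Odd.pow_neg (by decide) hx0
        omega
    omega
  · right
    have h' : (-x) ^ 3 = 1728 := by
      rw [Odd.neg_pow (by decide), h]; norm_num
    have h1 : -x ≤ 12 := by
      by_contra hgt
      rw [not_le] at hgt
      have h2 : (13 : ℤ) ^ 3 ≤ (-x) ^ 3 := pow_le_pow_left₀ (by norm_num) hgt 3
      omega
    have h2 : 12 ≤ -x := by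
      by_contra hlt
      rw [not_le] at hlt
      have h3 : -x ≤ 11 := by omega
      by_cases hx0 : 0 ≤ -x
      · have h4 : (-x) ^ 3 ≤ (11 : ℤ) ^ 3 := pow_le_pow_left₀ hx0 h3 3
        omega
      · rw [not_le] at hx0
        have h4 : (-x) ^ 3 < 0 := Odd.pow_neg (by decide) hx0
        omega
    omega

/-- **Leaf (J)** -/
theorem u5j_leafJ : U5LeafJ := by
  intro W hΔ hW
  have hrel := W.c_relation
  -- if `c₄ c₆ = 0` then no prime divides `Δ`
  have hunit : W.c₄ = 0 ∨ W.c₆ = 0 → W.Δ = 1 ∨ W.Δ = -1 := by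
    intro h0
    refine u5j_isUnit_of_no_prime _ fun p hp hpΔ => ?_
    have h1 := hW p hp hpΔ
    rcases h0 with h0 | h0
    · exact h1 (by rw [h0]; exact dvd_zero _)
    · apply h1
      have h2 : (p : ℤ) ∣ W.c₄ ^ 3 := by
        have : W.c₄ ^ 3 = 1728 * W.Δ := by rw [hrel, h0]; ring
        rw [this]
        exact Dvd.dvd.mul_left hpΔ _
      exact (Nat.prime_iff_prime_int.mp hp).dvd_of_dvd_pow h2
  constructor
  · intro h0
    have h1 := hunit (Or.inl h0)
    rw [h0] at hrel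
    rcases h1 with h1 | h1
    · rw [h1] at hrel
      exact (u5j_sq_ne W.c₆).2 (by linarith)
    · rw [h1] at hrel
      exact (u5j_sq_ne W.c₆).1 (by linarith)
  · intro h0
    have h1 := hunit (Or.inr h0)
    rw [h0] at hrel
    have h2 : W.c₄ = 12 ∨ W.c₄ = -12 := by
      apply u5j_cube
      rcases h1 with h1 | h1
      · left; rw [h1] at hrel; linarith
      · right; rw [h1] at hrel; linarith
    -- `b₂² = ±12 + 24 b₄`, `b₂ = a₁² + 4 a₂`
    have hc4 : W.c₄ = W.b₂ ^ 2 - 24 * W.b₄ := by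
      simp only [WeierstrassCurve.c₄]
    have hb2 : W.b₂ = W.a₁ ^ 2 + 4 * W.a₂ := by
      simp only [WeierstrassCurve.b₂]
    -- work modulo 16 on `a₁`
    have key : ∀ s : ℤ, (s = 12 ∨ s = -12) → W.b₂ ^ 2 - 24 * W.b₄ = s → False := by
      intro s hs hbs
      -- `b₂` is even
      have hmod : (W.a₁ ^ 2 + 4 * W.a₂) ^ 2 % 8 = 4 := by
        rw [← hb2]
        rcases hs with rfl | rfl <;> omega
      -- `a₁` even or odd
      rcases Int.even_or_odd W.a₁ with ⟨k, hk⟩ | ⟨k, hk⟩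
      · -- `a₁ = 2k` : `b₂ = 4 (k² + a₂)`, `b₂² ≡ 0 mod 16`
        have : (W.a₁ ^ 2 + 4 * W.a₂) ^ 2 = 16 * (k ^ 2 + W.a₂) ^ 2 := by rw [hk]; ring
        rw [this] at hmod
        omega
      · -- `a₁` odd : `b₂` odd, `b₂²` odd
        have : (W.a₁ ^ 2 + 4 * W.a₂) ^ 2 =
            8 * (2 * (k ^ 2 + k + W.a₂) ^ 2 + (k ^ 2 + k + W.a₂)) + 1 := by rw [hk]; ring
        rw [this] at hmod
        omega
    exact key W.c₄ h2 hc4.symm

end Fermat.Agent.U5
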