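import Fermat.Statements.S52
import Fermat.Agent.U5.Final
import Fermat.Agent.U5.LeafJ
import Fermat.Agent.U5.Gen.Leaf
import Fermat.Agent.U5.Gen.LeafMult
import Fermat.Agent.U5.Hit.Main
import Fermat.Agent.WE.Lift

/-!
# Program U (S52) : everything except the Klein leaf (prefix `u5z`)

`u5z_s52_of_klein : U5LeafKlein → (the frozen statement S52)` : the leaves
(E) `WE.we_leaf_five`, (J) `u5j_leafJ`, (F) `u5f_fam u5g_leafMult`, (G+H) `u5_leaf_hit u5h_hit u5g_leafGen`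
plugged into `u5z_result_line`.
-/

set_option autoImplicit false
open WeierstrassCurve WeierstrassCurve.Affine WeierstrassCurve.Affine.Point
open CuspForm ModularFormClass UpperHalfPlane
open WeierstrassCurve

namespace Fermat.Agent.U5

/-- the frozen statement S52, from the Klein leaf alone -/
theorem u5z_s52_of_klein (hKlein : U5LeafKlein) (W : WeierstrassCurve ℤ) (hΔ : W.Δ ≠ 0)
    (hW : W.IsSemistableModel) (_h5 : W.ModRepIsIrreducible 5) :
    ∃ W' : WeierstrassCurve ℤ, W'.Δ ≠ 0 ∧ W'.IsSemistableModel ∧ W'.ModRepIsIrreducible 3 ∧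
      ∀ ℓ : ℕ, ℓ.Prime → W.IsGoodPrimeFor ℓ → W'.IsGoodPrimeFor ℓ → ℓ ≠ 5 →
        (5 : ℤ) ∣ (W'.apOfModel ℓ - W.apOfModel ℓ) :=
  u5z_result_line (fun ℓ hℓ h5 => WE.we_leaf_five ℓ hℓ h5) u5j_leafJ (u5f_fam u5g_leafMult) hKlein
    (u5_leaf_hit u5h_hit u5g_leafGen) W hΔ hW

end Fermat.Agent.U5
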