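import Mathlib
import Fermat.Prelude.Def_FLTPrelim_GaloisRep
import Fermat.Prelude.Def_FLTPrelim_ModularRep
import Fermat.Prelude.Def_FLTPrelim_Modularity

/-!
# Program U (S52, the 3-5 switch): basic definitions

* `U5Tors E n`   : the `n`-torsion of `E(ℚ̄)` for a Weierstrass curve `E` over `ℚ`
  (the carrier of the frozen `GaloisRepIsIrreducible`);
* `U5CongrQ n E E'` : a `Gal(ℚ̄/ℚ)`-equivariant additive isomorphism `E[n](ℚ̄) ≃ E'[n](ℚ̄)`;
* `U5Congr n W W'`  : the same for integral models.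
-/

set_option autoImplicit false

namespace Fermat.Agent.U5

open WeierstrassCurve WeierstrassCurve.Affine

/-- the algebraic closure of `ℚ` of the frozen statements -/
abbrev U5Qb := AlgebraicClosure ℚ

/-- the `n`-torsion of `E(ℚ̄)`, `E` a Weierstrass curve over `ℚ` -/
noncomputable abbrev U5Tors (E : WeierstrassCurve ℚ) (n : ℕ) :=
  Submodule.torsionBy ℤ (E⁄U5Qb).Point (n : ℕ)

/-- `E[n]` and `E'[n]` are isomorphic as `Gal(ℚ̄/ℚ)`-modules. -/
def U5CongrQ (n : ℕ) (E E' : WeierstrassCurve ℚ) : Prop :=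
  ∃ ψ : U5Tors E n ≃+ U5Tors E' n,
    ∀ (σ : U5Qb ≃ₐ[ℚ] U5Qb) (x : U5Tors E n), ψ (σ • x) = σ • ψ x

/-- the curve over `ℚ` of an integral model -/
noncomputable abbrev u5Q (W : WeierstrassCurve ℤ) : WeierstrassCurve ℚ := W.map (Int.castRingHom ℚ)

/-- `W[n]` and `W'[n]` are isomorphic as `Gal(ℚ̄/ℚ)`-modules (integral models). -/
def U5Congr (n : ℕ) (W W' : WeierstrassCurve ℤ) : Prop := U5CongrQ n (u5Q W) (u5Q W')

lemma U5CongrQ.refl (n : ℕ) (E : WeierstrassCurve ℚ) : U5CongrQ n E E :=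
  ⟨AddEquiv.refl _, fun _ _ => rfl⟩

lemma U5CongrQ.symm {n : ℕ} {E E' : WeierstrassCurve ℚ} (h : U5CongrQ n E E') :
    U5CongrQ n E' E := by
  obtain ⟨ψ, hψ⟩ := h
  refine ⟨ψ.symm, fun σ x => ?_⟩
  apply ψ.injective
  rw [hψ, AddEquiv.apply_symm_apply, AddEquiv.apply_symm_apply]

lemma U5CongrQ.trans {n : ℕ} {E E' E'' : WeierstrassCurve ℚ} (h : U5CongrQ n E E')
    (h' : U5CongrQ n E' E'') : U5CongrQ n E E'' := by
  obtain ⟨ψ, hψ⟩ := h
  obtain ⟨ψ', hψ'⟩ := h'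
  exact ⟨ψ.trans ψ', fun σ x => by simp [hψ, hψ']⟩

end Fermat.Agent.U5
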